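import Mathlib

/-!
The Tate normal form invariants of a point on a Weierstrass curve, computed directly from its
coordinates: for a point `P = (x, y)` which is not of order 2, translating `P` to the origin and its
tangent to the horizontal axis gives `Y² + A₁ X Y + A₃ Y = X³ + A₂ X²`.
-/

set_option autoImplicit false

open WeierstrassCurve WeierstrassCurve.Affine WeierstrassCurve.Affine.Point

namespace Fermat.Agent.Mazur.Small

variable {F : Type*} [Field F] (W : WeierstrassCurve.Affine F) (x y : F)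

/-- The coefficient `A₃` of the normalised equation. -/
def tateA3 : F := 2 * y + W.a₁ * x + W.a₃

/-- The tangent slope. -/
def tateLam : F := (3 * x ^ 2 + 2 * W.a₂ * x + W.a₄ - W.a₁ * y) / tateA3 W x y

/-- The coefficient `A₁` of the normalised equation. -/
def tateA1 : F := W.a₁ + 2 * tateLam W x y

/-- The coefficient `A₂` of the normalised equation. -/
def tateA2 : F := 3 * x + W.a₂ - tateLam W x y * W.a₁ - tateLam W x y ^ 2

/-- The invariant `b` of the Tate normal form. -/
def tateB : F := -tateA2 W x y ^ 3 / tateA3 W x y ^ 2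

/-- The invariant `c` of the Tate normal form. -/
def tateC : F := 1 - tateA1 W x y * tateA2 W x y / tateA3 W x y

/-- Abscissa of the double. -/
def tateX2 : F := x - tateA2 W x y

/-- Ordinate of the double. -/
def tateY2 : F :=
  y - tateLam W x y * tateA2 W x y + tateA1 W x y * tateA2 W x y - tateA3 W x y

section neg

lemma tateA3_negY : tateA3 W x (W.negY x y) = -tateA3 W x y := by
  simp only [tateA3, negY]; ring

lemma tateLam_negY (h3 : tateA3 W x y ≠ 0) :
    tateLam W x (W.negY x y) = -tateLam W x y - W.a₁ := by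
  rw [tateLam, tateLam, tateA3_negY]
  field_simp
  simp only [tateA3, negY]
  ring

lemma tateA1_negY (h3 : tateA3 W x y ≠ 0) : tateA1 W x (W.negY x y) = -tateA1 W x y := by
  simp only [tateA1, tateLam_negY W x y h3]; ring

lemma tateA2_negY (h3 : tateA3 W x y ≠ 0) : tateA2 W x (W.negY x y) = tateA2 W x y := by
  simp only [tateA2, tateLam_negY W x y h3]; ring

lemma tateB_negY (h3 : tateA3 W x y ≠ 0) : tateB W x (W.negY x y) = tateB W x y := by
  simp only [tateB, tateA2_negY W x y h3, tateA3_negY]; ring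

lemma tateC_negY (h3 : tateA3 W x y ≠ 0) : tateC W x (W.negY x y) = tateC W x y := by
  simp only [tateC, tateA1_negY W x y h3, tateA2_negY W x y h3, tateA3_negY]
  rw [neg_mul, neg_div_neg_eq]

end neg

section double

lemma tateA3_double :
    tateA3 W (tateX2 W x y) (tateY2 W x y) = tateA1 W x y * tateA2 W x y - tateA3 W x y := by
  simp only [tateY2, tateX2, tateA1, tateA3]; ring

lemma tateLam_double (h3 : tateA3 W x y ≠ 0)
    (h3' : tateA1 W x y * tateA2 W x y - tateA3 W x y ≠ 0) :
    tateLam W (tateX2 W x y) (tateY2 W x y) = tateLam W x y +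
      (tateA2 W x y ^ 2 - tateA1 W x y ^ 2 * tateA2 W x y + tateA1 W x y * tateA3 W x y) /
        (tateA1 W x y * tateA2 W x y - tateA3 W x y) := by
  have hlam : 3 * x ^ 2 + 2 * W.a₂ * x + W.a₄ - W.a₁ * y = tateLam W x y * tateA3 W x y := by
    rw [tateLam]; field_simp
  rw [eq_comm, ← sub_eq_zero, tateLam.eq_1 W (tateX2 W x y), tateA3_double, add_div' _ _ _ h3',
    div_sub_div_same, div_eq_zero_iff]
  left
  generalize hl : tateLam W x y = l at hlam
  simp only [tateY2, tateX2, tateA1, tateA2, tateA3, hl] at hlam ⊢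
  linear_combination -hlam

lemma tateA1_double (h3 : tateA3 W x y ≠ 0)
    (h3' : tateA1 W x y * tateA2 W x y - tateA3 W x y ≠ 0) :
    tateA1 W (tateX2 W x y) (tateY2 W x y) = tateA1 W x y +
      2 * ((tateA2 W x y ^ 2 - tateA1 W x y ^ 2 * tateA2 W x y + tateA1 W x y * tateA3 W x y) /
        (tateA1 W x y * tateA2 W x y - tateA3 W x y)) := by
  rw [tateA1.eq_1 W (tateX2 W x y), tateLam_double W x y h3 h3']
  simp only [tateA1]; ring

lemma tateA2_double (h3 : tateA3 W x y ≠ 0)
    (h3' : tateA1 W x y * tateA2 W x y - tateA3 W x y ≠ 0) :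
    ∀ μ, μ = (tateA2 W x y ^ 2 - tateA1 W x y ^ 2 * tateA2 W x y + tateA1 W x y * tateA3 W x y) /
        (tateA1 W x y * tateA2 W x y - tateA3 W x y) →
    tateA2 W (tateX2 W x y) (tateY2 W x y) =
      -2 * tateA2 W x y - tateA1 W x y * μ - μ ^ 2 := by
  intro μ hμ
  rw [tateA2.eq_1 W (tateX2 W x y), tateLam_double W x y h3 h3', ← hμ]
  simp only [tateX2, tateA1, tateA2]; ring

end double

section invariants

lemma c4_eq (h3 : tateA3 W x y ≠ 0) :
    W.c₄ = (tateA1 W x y ^ 2 + 4 * tateA2 W x y) ^ 2 - 24 * (tateA1 W x y * tateA3 W x y) := by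
  have ha4 : W.a₄ = tateLam W x y * tateA3 W x y - 3 * x ^ 2 - 2 * W.a₂ * x + W.a₁ * y := by
    rw [tateLam, div_mul_cancel₀ _ h3]; ring
  generalize hl : tateLam W x y = l at ha4
  simp only [tateA1, tateA2, tateA3, hl] at ha4 ⊢
  simp only [WeierstrassCurve.c₄, WeierstrassCurve.b₂, WeierstrassCurve.b₄]
  rw [ha4]; ring

lemma delta_eq (h3 : tateA3 W x y ≠ 0) (h : W.Equation x y) :
    W.Δ = -(tateA1 W x y ^ 2 + 4 * tateA2 W x y) ^ 2 * tateA2 W x y * tateA3 W x y ^ 2
      - 8 * (tateA1 W x y * tateA3 W x y) ^ 3 - 27 * tateA3 W x y ^ 4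
      + 9 * (tateA1 W x y ^ 2 + 4 * tateA2 W x y) * (tateA1 W x y * tateA3 W x y)
        * tateA3 W x y ^ 2 := by
  have ha4 : W.a₄ = tateLam W x y * tateA3 W x y - 3 * x ^ 2 - 2 * W.a₂ * x + W.a₁ * y := by
    rw [tateLam, div_mul_cancel₀ _ h3]; ring
  have ha6 : W.a₆ = y ^ 2 + W.a₁ * x * y + W.a₃ * y - x ^ 3 - W.a₂ * x ^ 2 - W.a₄ * x := by
    rw [equation_iff] at h; linear_combination -h
  generalize hl : tateLam W x y = l at ha4
  simp only [tateA1, tateA2, tateA3, hl] at ha4 ⊢
  simp only [WeierstrassCurve.Δ, WeierstrassCurve.b₂, WeierstrassCurve.b₄, WeierstrassCurve.b₆,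
    WeierstrassCurve.b₈]
  rw [ha6, ha4]; ring

end invariants

section map

variable {L : Type*} [Field L] (f : F →+* L)

lemma map_tateA3 : tateA3 (W.map f) (f x) (f y) = f (tateA3 W x y) := by
  simp [tateA3, map_ofNat]

lemma map_tateLam : tateLam (W.map f) (f x) (f y) = f (tateLam W x y) := by
  simp [tateLam, map_tateA3, map_ofNat]

lemma map_tateB : tateB (W.map f) (f x) (f y) = f (tateB W x y) := by
  simp [tateB, tateA2, map_tateA3, map_tateLam, map_ofNat]

lemma map_tateC : tateC (W.map f) (f x) (f y) = f (tateC W x y) := by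
  simp [tateC, tateA1, tateA2, map_tateA3, map_tateLam, map_ofNat]

end map

section group

variable [DecidableEq F] {W} {x y : F} (h : W.Nonsingular x y)

include h

lemma tateA3_ne_zero (h2 : (2 : ℕ) • Point.some _ _ h ≠ 0) : tateA3 W x y ≠ 0 := by
  intro h0
  apply h2
  rw [two_nsmul]
  refine add_self_of_Y_eq ?_
  simp only [tateA3, negY] at h0 ⊢
  linear_combination h0

lemma exists_double (h3 : tateA3 W x y ≠ 0) :
    ∃ h2 : W.Nonsingular (tateX2 W x y) (tateY2 W x y),
      (2 : ℕ) • Point.some _ _ h = Point.some _ _ h2 := by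
  have hy : y ≠ W.negY x y := by
    intro h0; apply h3; simp only [negY] at h0; simp only [tateA3]; linear_combination h0
  have hl : W.slope x x y y = tateLam W x y := by
    rw [slope_of_Y_ne rfl hy, tateLam]
    congr 1
    simp only [tateA3, negY]; ring
  have hxy : ¬(x = x ∧ y = W.negY x y) := fun hh => hy hh.2
  have hX : W.addX x x (W.slope x x y y) = tateX2 W x y := by
    simp only [hl, addX, tateX2, tateA2]; ring
  have hY : W.addY x x y (W.slope x x y y) = tateY2 W x y := by
    simp only [hl, addY, negAddY, negY, addX, tateY2, tateA1, tateA2, tateA3]; ring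
  have hns : W.Nonsingular (tateX2 W x y) (tateY2 W x y) := hX ▸ hY ▸ nonsingular_add h h hxy
  refine ⟨hns, ?_⟩
  rw [two_nsmul, add_some hxy]
  simp only [Point.some.injEq]
  exact ⟨hX, hY⟩

lemma tateA2_ne_zero (h3 : tateA3 W x y ≠ 0) (hthree : (3 : ℕ) • Point.some _ _ h ≠ 0) :
    tateA2 W x y ≠ 0 := by
  intro h0
  obtain ⟨h2, hd⟩ := exists_double h h3
  have hxx : tateX2 W x y = x := by simp [tateX2, h0]
  rcases (X_eq_iff (h₁ := h2) (h₂ := h)).1 hxx with he | he
  · rw [← hd, two_nsmul, add_eq_left] at he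
    exact some_ne_zero h he
  · exact hthree (by rw [succ_nsmul, hd, he, neg_add_cancel])

lemma exists_triple (h3 : tateA3 W x y ≠ 0) (h2' : tateA2 W x y ≠ 0) :
    ∃ (y' : F) (h' : W.Nonsingular
        (x + (tateA3 W x y - tateA1 W x y * tateA2 W x y) * tateA3 W x y / tateA2 W x y ^ 2) y'),
      (3 : ℕ) • Point.some _ _ h = Point.some _ _ h' := by
  obtain ⟨h2, hd⟩ := exists_double h h3
  have hne : x ≠ tateX2 W x y := by
    intro h0; apply h2'; simp only [tateX2] at h0; linear_combination h0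
  have hxy : ¬(x = tateX2 W x y ∧ y = W.negY (tateX2 W x y) (tateY2 W x y)) := fun hh => hne hh.1
  have hl : W.slope x (tateX2 W x y) y (tateY2 W x y) =
      tateLam W x y + (tateA3 W x y - tateA1 W x y * tateA2 W x y) / tateA2 W x y := by
    rw [slope_of_X_ne hne, tateX2, tateY2, sub_sub_cancel]
    field_simp
    ring
  have hX : W.addX x (tateX2 W x y) (W.slope x (tateX2 W x y) y (tateY2 W x y)) =
      x + (tateA3 W x y - tateA1 W x y * tateA2 W x y) * tateA3 W x y / tateA2 W x y ^ 2 := by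
    rw [hl, addX, tateX2]
    generalize hL : tateLam W x y = l
    simp only [tateA1, tateA2, hL] at h2' ⊢
    field_simp
    ring
  refine ⟨_, hX ▸ nonsingular_add h h2 hxy, ?_⟩
  rw [succ_nsmul, hd, add_comm, add_some hxy]
  simp only [Point.some.injEq]
  exact ⟨hX, trivial⟩

end group

lemma exists_tate_parameters (h3 : tateA3 W x y ≠ 0) (h2 : tateA2 W x y ≠ 0) :
    ∃ u b c : F, u ≠ 0 ∧ b ≠ 0 ∧ tateB W x y = b ∧ tateC W x y = c ∧
      tateA1 W x y = u * (1 - c) ∧ tateA2 W x y = -b * u ^ 2 ∧ tateA3 W x y = -b * u ^ 3 := by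
  refine ⟨tateA3 W x y / tateA2 W x y, tateB W x y, tateC W x y, div_ne_zero h3 h2, ?_, rfl, rfl,
    ?_, ?_, ?_⟩
  · simp [tateB, h3, h2]
  · simp only [tateC]; field_simp; ring
  · simp only [tateB]; field_simp
  · simp only [tateB]; field_simp

end Fermat.Agent.Mazur.Small
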