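import Fermat.Prelude.Def_FLTPrelim_CofixedLine
import Mathlib

/-!
A Galois-stable line in the `p`-torsion gives a point whose Galois conjugates are its multiples.
-/

set_option autoImplicit false

open WeierstrassCurve WeierstrassCurve.Affine WeierstrassCurve.Affine.Point

namespace Fermat.Agent.Mazur.Small

lemma exists_point_of_stable_line (W : WeierstrassCurve.Affine ℚ) {p : ℕ} (hp : p.Prime)
    (hcard : Nat.card (Submodule.torsionBy ℤ (W⁄(AlgebraicClosure ℚ)).Point p) = p ^ 2)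
    {N : Submodule (ZMod p) (Submodule.torsionBy ℤ (W⁄(AlgebraicClosure ℚ)).Point p)}
    (hst : IsGaloisStable ℚ N) (hbot : N ≠ ⊥) (htop : N ≠ ⊤) :
    ∃ P : (W⁄(AlgebraicClosure ℚ)).Point, P ≠ 0 ∧ p • P = 0 ∧
      ∀ σ : AlgebraicClosure ℚ ≃ₐ[ℚ] AlgebraicClosure ℚ, ∃ k : ℕ, σ • P = k • P := by
  have : Finite (Submodule.torsionBy ℤ (W⁄(AlgebraicClosure ℚ)).Point p) :=
    Nat.finite_of_card_ne_zero (by rw [hcard]; exact pow_ne_zero 2 hp.ne_zero)
  obtain ⟨x, hxN, hx0⟩ := N.ne_bot_iff.1 hbot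
  have hdvd := AddSubgroup.card_addSubgroup_dvd_card N.toAddSubgroup
  rw [hcard] at hdvd
  obtain ⟨i, hi, hcardN⟩ := (Nat.dvd_prime_pow hp).1 hdvd
  have hi0 : i ≠ 0 := by
    rintro rfl
    rw [pow_zero, AddSubgroup.card_eq_one] at hcardN
    exact hbot (Submodule.toAddSubgroup_injective (by rw [hcardN]; rfl))
  have hi2 : i ≠ 2 := by
    rintro rfl
    exact htop (Submodule.toAddSubgroup_injective
      (by rw [AddSubgroup.eq_top_of_card_eq _ (hcardN.trans hcard.symm)]; rfl))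
  have hi1 : i = 1 := by omega
  rw [hi1, pow_one] at hcardN
  have : Fact p.Prime := ⟨hp⟩
  refine ⟨(x : (W⁄(AlgebraicClosure ℚ)).Point),
    fun h0 => hx0 (Subtype.ext (by simpa using h0)), ?_, fun σ => ?_⟩
  · have := Submodule.smul_torsionBy (p : ℤ) x
    rw [← natCast_zsmul]
    exact congrArg Subtype.val this
  · have hmem : (⟨σ • x, hst σ x hxN⟩ : N.toAddSubgroup) ∈
        AddSubmonoid.multiples (⟨x, hxN⟩ : N.toAddSubgroup) :=
      mem_multiples_of_prime_card hcardN (fun h0 => hx0 (congrArg Subtype.val h0))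
    obtain ⟨k, hk⟩ := hmem
    exact ⟨k, congrArg Subtype.val (congrArg Subtype.val hk).symm⟩

end Fermat.Agent.Mazur.Small
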