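import Fermat.Agent.Mazur.Small.DescentFive
import Fermat.Agent.Mazur.Small.SquareClass

/-!
Rational points of `y² = t³ + 22 t² + 125 t`.
-/

set_option autoImplicit false

namespace Fermat.Agent.Mazur.Small

lemma five_quartic_no_point (s w : ℚ) : w ^ 2 ≠ s ^ 4 + 22 * s ^ 2 + 125 := by
  intro h
  set M := s.num with hM
  set e : ℤ := (s.den : ℤ) with he
  have he0 : e ≠ 0 := by rw [he]; exact_mod_cast s.den_nz
  have heq : (e : ℚ) ≠ 0 := by exact_mod_cast he0
  have hs : s = (M : ℚ) / e := by rw [hM, he]; exact_mod_cast (Rat.num_div_den s).symm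
  obtain ⟨N, hN⟩ : IsSquare (M ^ 4 + 22 * M ^ 2 * e ^ 2 + 125 * e ^ 4) := by
    rw [← Rat.isSquare_intCast_iff]
    refine ⟨w * (e : ℚ) ^ 2, ?_⟩
    rw [show w * (e : ℚ) ^ 2 * (w * (e : ℚ) ^ 2) = w ^ 2 * (e : ℚ) ^ 4 by ring, h, hs]
    push_cast
    field_simp
  exact he0 (five_descent (M := M) (e := e) (N := N) s.isCoprime_num_den (by rw [sq N]; exact hN.symm))

theorem curve_five_points {t y : ℚ} (h : y ^ 2 = t * (t ^ 2 + 22 * t + 125)) : t = 0 := by
  by_contra ht
  obtain ⟨M, e, -, he, h1 | h1⟩ := square_class (a := 22) (p := 5) (k := 3) (by norm_num)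
    (by norm_num) (by norm_num) ht (by rw [h]; norm_num)
  · set s := (M : ℚ) / e
    have hs : s ≠ 0 := by rintro hs; exact ht (by rw [h1, hs]; ring)
    refine five_quartic_no_point s (y / s) ?_
    rw [div_pow, h, h1]; field_simp
  · set s := (M : ℚ) / e
    have hs : s ≠ 0 := by rintro hs; exact ht (by rw [h1, hs]; ring)
    refine five_quartic_no_point (5 / s) (125 * y / t ^ 2 * (s / 5)) ?_
    rw [mul_pow, div_pow, mul_pow, h, h1]; push_cast; field_simp; ring

end Fermat.Agent.Mazur.Small
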